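/-
Row 37 (S43), block ASM = the ABSTRACT half of GLUE (helper6).  DEFINITIONS ONLY.  Mathlib only.

`Asm.Pkg p a` = the conjunction of the deliverables of the blocks FREE, TRIV, C4, TAME, L0, E0, EXP, H5, DICT, in abstract
form.  `Asm.false_of_pkg : Pkg p a → False` (`Asm/Main.lean`, sorry-free) is pure algebra: `Asm.Pkg` is a front-end, with
weaker fields, of helper144's `Glue.Pkg` + `Glue.Red` (`Glue/Abs.lean`: COUNT of helper210 + denominator trick + `CoreP`).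

INTENDED INSTANCE (`P = p ^ a ‖ q - 1`, `n = p ^ (a + 1)`; `a = 0` allowed: then `δ = 1`, `W = W0`, `pr = inc = id`):
* `W  = W_H(n)_m`  : the `m`-part of the prime-to-`p`-diamond invariants of `W1 F1 n`   (NO localisation at `U_q - u`);
* `W0 = W_0(n)_m`  : the `m`-part of `W1 F0 n`, level `Γ₀(M q)`;
* `Wb` : ANY `𝔽_p`-space with a surjection `red : W → Wb` of kernel `p W`  (`W_H(p)_m` with `red = Exp.dn`, or `W / p W`);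
* `δ` a generator of `Δ`; `S = ρ(σ)`, `Φ = ρ(φ)` (σ, φ from TAME: σ ↦ δ, φ fixes `μ_q`); `U = U_q`, `V = U_q^t = w U_q w⁻¹`;
* `pr = π_*`, `inc = π^*`; `K1 = K_∞ ∩ W`, `K2 = K_0 ∩ W` (`K_0 = w K_∞`);
* `Y0 = K_∞⁰ ∩ K_0⁰ ∩ W0` (toric classes at level `Γ₀(M q)`), `U0 = U_q = U_q^t = - w_q` on `W0` (an involution, NOT a scalar).
-/
import Mathlib

set_option autoImplicit false

namespace Fermat.Agent.S43.Asm

/-- **The abstract package.** -/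
structure Pkg (p a : ℕ) [Fact p.Prime] : Type 1 where
  W : Type
  W0 : Type
  Wb : Type
  [acg : AddCommGroup W]
  [acg0 : AddCommGroup W0]
  [acgb : AddCommGroup Wb]
  [modb : Module (ZMod p) Wb]
  [fin : Finite W]
  /-- DICT (i): `ρ̄` is modular of level `M q` -/
  [nontriv0 : Nontrivial W0]
  /-- `q = 1 + κ p ^ a`, `p ∤ κ` -/
  κ : ℕ
  q : ℕ
  hq : q = 1 + κ * p ^ a
  hκ : ¬ p ∣ κ
  -- operators
  δ : W →+ W
  S : W →+ W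
  Φ : W →+ W
  U : W →+ W
  V : W →+ W
  S0 : W0 →+ W0
  Φ0 : W0 →+ W0
  U0 : W0 →+ W0
  pr : W →+ W0
  inc : W0 →+ W
  K1 : AddSubgroup W
  K2 : AddSubgroup W
  Y0 : AddSubgroup W0
  -- OPS: commutation relations on `W` (`[U, V] = 0` is NOT assumed)
  δS : ∀ x, δ (S x) = S (δ x)
  δU : ∀ x, δ (U x) = U (δ x)
  SU : ∀ x, S (U x) = U (S x)
  SV : ∀ x, S (V x) = V (S x)
  -- OPS: equivariance of `pr = π_*`
  pr_S : ∀ x, pr (S x) = S0 (pr x)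
  pr_Φ : ∀ x, pr (Φ x) = Φ0 (pr x)
  pr_U : ∀ x, pr (U x) = U0 (pr x)
  pr_V : ∀ x, pr (V x) = U0 (pr x)
  -- EXP: exponent `n = p ^ (a + 1)`; `W0` is free over `ℤ / n`
  nW : ∀ x : W, p ^ (a + 1) • x = 0
  nW0 : ∀ x : W0, p ^ (a + 1) • x = 0
  div0 : ∀ (j : ℕ) (x : W0), j ≤ a + 1 → p ^ j • x = 0 → ∃ y, x = p ^ (a + 1 - j) • y
  -- FREE, exponent `n`
  δ_pow : ∀ x, δ^[p ^ a] x = x
  pr_surj : Function.Surjective pr
  ker_pr : ∀ x, pr x = 0 → ∃ y, x = δ y - y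
  inc_inj : Function.Injective inc
  inc_pr : ∀ x, inc (pr x) = ∑ m ∈ Finset.range (p ^ a), δ^[m] x
  -- TAME
  tame : ∀ x, Φ (S x) = S^[q] (Φ x)
  -- TRIV, level `H`
  K1_δ : ∀ x ∈ K1, δ x ∈ K1
  K2_δ : ∀ x ∈ K2, δ x ∈ K2
  S_K1 : ∀ x, S x - x ∈ K1
  Φ_K1 : ∀ x, Φ x - U x ∈ K1
  S_K2 : ∀ x, S x - δ x ∈ K2
  Φ_K2 : ∀ x, Φ x - V x ∈ K2
  pr_K1 : ∀ x ∈ K1, pr x ∈ Y0
  pr_K2 : ∀ x ∈ K2, pr x ∈ Y0
  -- C4 (= INJ), only for `p`-torsion classes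
  inj1 : ∀ s : W0, p • s = 0 → inc s ∈ K1 → s ∈ Y0
  inj2 : ∀ s : W0, p • s = 0 → inc s ∈ K2 → s ∈ Y0
  -- L0 (landed C1 / S34 facts at level `Γ₀(M q)`)
  U0_sq : ∀ x, U0 (U0 x) = x
  S0_sub : ∀ x, S0 x - x ∈ Y0
  S0_Y0 : ∀ y ∈ Y0, S0 y = y
  Φ0_sub : ∀ x, Φ0 x - U0 x ∈ Y0
  /-- E0 = (E') : `ker N₀ ≤ im N₀` on `W0 / p W0` -/
  exact0 : ∀ x z : W0, S0 x - x = p • z → ∃ s z' : W0, x = (S0 s - s) + p • z'
  -- the reduction `W → Wb`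
  red : W →+ Wb
  red_surj : Function.Surjective red
  ker_red : ∀ x, red x = 0 → ∃ y, x = p • y
  δb : Module.End (ZMod p) Wb
  Sb : Module.End (ZMod p) Wb
  Φb : Module.End (ZMod p) Wb
  Ub : Module.End (ZMod p) Wb
  Vb : Module.End (ZMod p) Wb
  red_δ : ∀ x, red (δ x) = δb (red x)
  red_S : ∀ x, red (S x) = Sb (red x)
  red_Φ : ∀ x, red (Φ x) = Φb (red x)
  red_U : ∀ x, red (U x) = Ub (red x)
  red_V : ∀ x, red (V x) = Vb (red x)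
  -- H5 on `Wb`: `σ - 1 ∈ m · 𝕋[G_ℚ]`
  J : Type
  [finJ : Fintype J]
  t : J → Module.End (ZMod p) Wb
  e : J → Module.End (ZMod p) Wb
  t_nil : ∀ j, IsNilpotent (t j)
  t_t : ∀ i j, Commute (t i) (t j)
  t_δ : ∀ j, Commute (t j) δb
  t_U : ∀ j, Commute (t j) Ub
  t_S : ∀ j, Commute (t j) Sb
  t_Φ : ∀ j, Commute (t j) Φb
  e_δ : ∀ j, Commute (e j) δb
  e_U : ∀ j, Commute (e j) Ub
  e_V : ∀ j, Commute (e j) Vb
  H5 : Sb - 1 = ∑ j, t j * e j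

attribute [instance] Pkg.acg Pkg.acg0 Pkg.acgb Pkg.modb Pkg.fin Pkg.nontriv0 Pkg.finJ

end Fermat.Agent.S43.Asm
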