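/-
Row 37 (S43), block ASM (helper6).  `Asm.Pkg` IS A FRONT-END OF helper144's `Glue.Pkg` + `Glue.Red`
(`S43/Glue/Abs.lean`, kernel-checked `Glue.Red.nonempty_data`), with WEAKER fields:

* E0 : only (E') modulo `p` (`exact0`)           ⟹ `hE` (`ker N₀ = im N₀` at exponent `n`), `hpure`;
* C4 : only for `p`-torsion classes (`inj1/2`)   ⟹ `γ`, `γ'` for all classes;
* `pr_δ`, `δ_inc`, `a_inc`, `Z1`, `Z2`, `U₀_surj`, `L0`, `prK` are derived.

    `Pkg.toGlue`, `Pkg.toRed`, `false_of_pkg : Pkg p a → False`.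
-/
import Fermat.Agent.S43.Asm.Defs
import Fermat.Agent.S43.Glue.Abs

set_option autoImplicit false

namespace Fermat.Agent.S43.Asm

namespace Pkg

variable {p a : ℕ} [Fact p.Prime] (D : Pkg p a)

/-- `N₀ = σ - 1` on `W0`. -/
def N0 : D.W0 →+ D.W0 := D.S0 - AddMonoidHom.id D.W0

theorem N0_apply (x : D.W0) : D.N0 x = D.S0 x - x := rfl

theorem N0_mem (x : D.W0) : D.N0 x ∈ D.Y0 := D.S0_sub x

theorem N0_of_mem {y : D.W0} (hy : y ∈ D.Y0) : D.N0 y = 0 := by
  rw [N0_apply, D.S0_Y0 y hy, sub_self]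

theorem N0_N0 (x : D.W0) : D.N0 (D.N0 x) = 0 := D.N0_of_mem (D.N0_mem x)

/-- (E') modulo `p`. -/
theorem exact1 (x z : D.W0) (h : D.N0 x = p • z) : ∃ s z' : D.W0, x = D.N0 s + p • z' :=
  D.exact0 x z h

/-- (E') modulo `p ^ j`. -/
theorem exactj : ∀ j : ℕ, j ≤ a + 1 → ∀ x w : D.W0, D.N0 x = p ^ j • w →
    ∃ s z : D.W0, x = D.N0 s + p ^ j • z := by
  intro j
  induction j with
  | zero => intro _ x _ _; exact ⟨0, x, by simp⟩
  | succ j ih =>
    intro hj x w hx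
    obtain ⟨s, z, hs⟩ := ih (by omega) x (p • w) (by rw [hx, pow_succ, mul_smul])
    have h1 : p ^ j • (D.N0 z - p • w) = 0 := by
      have h2 : D.N0 x = p ^ j • D.N0 z := by
        rw [hs, map_add, D.N0_N0, zero_add, map_nsmul]
      rw [smul_sub, ← h2, hx, pow_succ, mul_smul, sub_self]
    obtain ⟨y', hy'⟩ := D.div0 j _ (by omega) h1
    have e : a + 1 - j = (a - j) + 1 := by omega
    have h3 : D.N0 z = p • (w + p ^ (a - j) • y') := by
      rw [smul_add, ← mul_smul, ← pow_succ', ← e, ← hy']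
      abel
    obtain ⟨s', z', hz⟩ := D.exact1 z _ h3
    refine ⟨s + p ^ j • s', z', ?_⟩
    rw [hs, hz, map_add, map_nsmul, smul_add, ← mul_smul, ← pow_succ]
    abel

/-- `ker N₀ = im N₀` at exponent `n`. -/
theorem hE (y : D.W0) : D.N0 y = 0 ↔ ∃ z, y = D.N0 z := by
  constructor
  · intro h
    obtain ⟨s, z, hs⟩ := D.exactj (a + 1) le_rfl y 0 (by rw [h, smul_zero])
    exact ⟨s, by rw [hs, D.nW0, add_zero]⟩
  · rintro ⟨z, rfl⟩
    exact D.N0_N0 z

theorem hpure (y : D.W0) (h : D.N0 (p ^ (a + 1 - 1) • y) = 0) :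
    ∃ z z', y = D.N0 z + p • z' := by
  rw [Nat.add_sub_cancel, map_nsmul] at h
  obtain ⟨y', hy'⟩ := D.div0 a _ (by omega) h
  have e : a + 1 - a = 1 := by omega
  rw [e, pow_one] at hy'
  exact D.exact1 y y' hy'

/-! ### the norm -/

/-- `Nm = ∑_{m < P} δ ^ m`. -/
theorem δ_nm (x : D.W) :
    D.δ (∑ m ∈ Finset.range (p ^ a), D.δ^[m] x) = ∑ m ∈ Finset.range (p ^ a), D.δ^[m] x := by
  rw [map_sum]
  have h1 : ∑ m ∈ Finset.range (p ^ a), D.δ (D.δ^[m] x) =
      ∑ m ∈ Finset.range (p ^ a), D.δ^[m + 1] x :=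
    Finset.sum_congr rfl fun m _ => by rw [Function.iterate_succ_apply']
  have h2 := Finset.sum_range_succ (fun m => D.δ^[m] x) (p ^ a)
  have h3 := Finset.sum_range_succ' (fun m => D.δ^[m] x) (p ^ a)
  rw [h1]
  rw [h2, D.δ_pow] at h3
  simp only [Function.iterate_zero, id] at h3
  exact (add_right_cancel h3).symm

theorem nm_δ (x : D.W) :
    ∑ m ∈ Finset.range (p ^ a), D.δ^[m] (D.δ x) = ∑ m ∈ Finset.range (p ^ a), D.δ^[m] x := by
  rw [← D.δ_nm x, map_sum]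
  exact Finset.sum_congr rfl fun m _ => by
    rw [← Function.iterate_succ_apply, Function.iterate_succ_apply']

theorem pr_δ (x : D.W) : D.pr (D.δ x) = D.pr x := by
  apply D.inc_inj
  rw [D.inc_pr, D.inc_pr, D.nm_δ]

theorem δ_inc (y : D.W0) : D.δ (D.inc y) = D.inc y := by
  obtain ⟨x, rfl⟩ := D.pr_surj y
  rw [D.inc_pr, D.δ_nm]

theorem S_iter_δ (m : ℕ) (x : D.W) : D.S (D.δ^[m] x) = D.δ^[m] (D.S x) := by
  induction m with
  | zero => rfl
  | succ m ih => rw [Function.iterate_succ_apply', Function.iterate_succ_apply', ← D.δS, ih]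

theorem S_inc (y : D.W0) : D.S (D.inc y) = D.inc (D.S0 y) := by
  obtain ⟨x, rfl⟩ := D.pr_surj y
  rw [← D.pr_S, D.inc_pr, D.inc_pr, map_sum]
  exact Finset.sum_congr rfl fun m _ => D.S_iter_δ m x

theorem inc_N0 (y : D.W0) : D.inc (D.N0 y) = D.S (D.inc y) - D.inc y := by
  rw [N0_apply, map_sub, D.S_inc]

theorem inc_N0_mem_K1 (y : D.W0) : D.inc (D.N0 y) ∈ D.K1 := by
  rw [D.inc_N0]
  exact D.S_K1 _

theorem inc_N0_mem_K2 (y : D.W0) : D.inc (D.N0 y) ∈ D.K2 := by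
  rw [D.inc_N0]
  have := D.S_K2 (D.inc y)
  rwa [D.δ_inc] at this

/-- C4 for all classes, from C4 for `p`-torsion classes. -/
theorem gamma_aux (K : AddSubgroup D.W) (hK : ∀ y, D.inc (D.N0 y) ∈ K)
    (inj : ∀ s : D.W0, p • s = 0 → D.inc s ∈ K → s ∈ D.Y0) :
    ∀ j : ℕ, j ≤ a + 1 → ∀ y : D.W0, p ^ j • D.N0 y = 0 → D.inc y ∈ K → D.N0 y = 0 := by
  intro j
  induction j with
  | zero => intro _ y h _; simpa using h
  | succ j ih =>
    intro hj y h hy
    apply ih (by omega) y _ hy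
    -- `v = p ^ j y`, `p N₀ v = 0`
    have h1 : p • D.N0 (p ^ j • y) = 0 := by
      rw [map_nsmul, ← mul_smul, ← pow_succ']
      exact h
    obtain ⟨w, hw⟩ := D.div0 1 _ (by omega) (by rw [pow_one]; exact h1)
    rw [Nat.add_sub_cancel] at hw
    obtain ⟨s', z', hs⟩ := D.exactj a (by omega) _ w hw
    -- `s'' = v - N₀ s'` is `p`-torsion
    have h2 : p • (p ^ j • y - D.N0 s') = 0 := by
      rw [hs, add_sub_cancel_left, ← mul_smul, ← pow_succ', D.nW0]
    have h3 : D.inc (p ^ j • y - D.N0 s') ∈ K := by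
      rw [map_sub, map_nsmul]
      exact K.sub_mem (K.nsmul_mem hy _) (hK s')
    have h4 := D.N0_of_mem (inj _ h2 h3)
    rw [map_sub, D.N0_N0, sub_zero, map_nsmul] at h4
    exact h4

theorem gamma1 (y : D.W0) (hy : D.inc y ∈ D.K1) : D.N0 y = 0 :=
  D.gamma_aux D.K1 D.inc_N0_mem_K1 D.inj1 (a + 1) le_rfl y (D.nW0 _) hy

theorem gamma2 (y : D.W0) (hy : D.inc y ∈ D.K2) : D.N0 y = 0 :=
  D.gamma_aux D.K2 D.inc_N0_mem_K2 D.inj2 (a + 1) le_rfl y (D.nW0 _) hy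

/-- The counting data of helper210. -/
def toT2 : T2.Data p (a + 1) a D.W D.W0 where
  hk := Nat.succ_pos a
  hW := D.nW
  δ := D.δ
  a := D.S - AddMonoidHom.id D.W
  N₀ := D.N0
  pr := D.pr
  inc := D.inc
  hδ := by
    ext x
    rw [AddMonoid.End.coe_pow]
    exact D.δ_pow x
  pr_surj := D.pr_surj
  pr_δ := D.pr_δ
  ker_pr := D.ker_pr
  inc_inj := D.inc_inj
  δ_inc := D.δ_inc
  inc_pr := by
    intro x
    rw [D.inc_pr]
    exact Finset.sum_congr rfl fun m _ => by rw [AddMonoid.End.coe_pow]; rfl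
  pr_a := by
    intro x
    show D.pr (D.S x - x) = _
    rw [map_sub, D.pr_S]
    rfl
  a_inc := fun y => (D.inc_N0 y).symm
  hE := D.hE
  hpure := D.hpure
  K := D.K1
  K' := D.K2
  K_δ := D.K1_δ
  K'_δ := D.K2_δ
  aK := D.S_K1
  bK' := by
    intro x
    have : D.S x - x - (D.δ x - x) = D.S x - D.δ x := by abel
    show D.S x - x - (D.δ x - x) ∈ D.K2
    rw [this]
    exact D.S_K2 x
  prK := fun x hx => D.N0_of_mem (D.pr_K1 x hx)
  prK' := fun x hx => D.N0_of_mem (D.pr_K2 x hx)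
  γ := D.gamma1
  γ' := D.gamma2

/-- helper144's abstract package. -/
def toGlue : Glue.Pkg p a D.W D.W0 :=
  { D.toT2 with
    κ := D.κ
    q := D.q
    hq := D.hq
    hκ := D.hκ
    S := D.S
    F := D.Φ
    U := D.U
    Ut := D.V
    F₀ := D.Φ0
    U₀ := D.U0
    a_eq := fun _ => rfl
    δ_U := D.δU
    δ_S := D.δS
    U_S := fun x => (D.SU x).symm
    Ut_S := fun x => (D.SV x).symm
    tame := D.tame
    pr_F := D.pr_Φ
    pr_U := D.pr_U
    pr_Ut := D.pr_V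
    U₀_surj := fun x => ⟨D.U0 x, D.U0_sq x⟩
    FK := D.Φ_K1
    FK' := D.Φ_K2
    L0 := fun y => D.N0_of_mem (D.Φ0_sub y)
    Z1 := by
      intro y hy
      obtain ⟨z, hz⟩ := D.div0 a y (by omega) hy
      have e : a + 1 - a = 1 := by omega
      rw [e, pow_one] at hz
      exact ⟨z, hz⟩
    Z2 := by
      intro y hy
      obtain ⟨z, hz⟩ := D.div0 1 y (by omega) (by rw [pow_one]; exact hy)
      rw [Nat.add_sub_cancel] at hz
      exact ⟨z, hz⟩ }

/-- helper144's reduction modulo `p`. -/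
def toRed : Glue.Red D.toGlue D.Wb where
  π := D.red
  π_surj := D.red_surj
  ker_π := D.ker_red
  δb := D.δb
  Sb := D.Sb
  Fb := D.Φb
  Ub := D.Ub
  Utb := D.Vb
  π_δ := D.red_δ
  π_S := D.red_S
  π_F := D.red_Φ
  π_U := D.red_U
  π_Ut := D.red_V
  ι := D.J
  s := Finset.univ
  t := D.t
  c := D.e
  t_δ := D.t_δ
  t_S := D.t_S
  t_F := D.t_Φ
  t_U := D.t_U
  t_t := D.t_t
  t_nilp := D.t_nil
  c_δ := D.e_δ
  c_U := D.e_U
  c_Ut := D.e_V
  H5 := D.H5

end Pkg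

/-- **The abstract package is contradictory.** -/
theorem false_of_pkg {p a : ℕ} [Fact p.Prime] (D : Pkg p a) : False :=
  CoreP.false_of_data D.toRed.nonempty_data.some

end Fermat.Agent.S43.Asm
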