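/-
Row 37 (S43), block ASM (helper6).  THE HYPOTHESIS `TameAt` OF THE BLOCK TAME AT LEVEL `H` (abstract, Mathlib only).

`W` killed by `n`, `τ = ρ(τ)` (τ in the inertia group at `q`), `d = ⟨ε(τ)⟩` (`d ^ P = 1`), `K = K_∞`, `Y = K_∞ ∩ K_0`:
  `(τ - 1) W ≤ K`,   `(τ - d) K ≤ Y`,   `τ = 1` on `Y`     ⟹     `τ ^ (P n n) = 1`.
(`(τ - d) K ≤ Y` : `(τ - d) W ≤ K_0` and `K_∞` is stable under `τ` and `d`;  `τ = 1` on `Y = inc (ker N₀)` by COUNT,
which only needs a generator of the tame inertia at level `Γ₀`.)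
So every element of the inertia group has an image of order prime to `q` (`q ∤ P n n`).
-/
import Mathlib

set_option autoImplicit false

namespace Fermat.Agent.S43.Asm

variable {W : Type*} [AddCommGroup W]

/-- the iterates of an additive endomorphism, as additive maps -/
def itHom (f : W →+ W) : ℕ → (W →+ W)
  | 0 => AddMonoidHom.id W
  | n + 1 => (itHom f n).comp f

theorem itHom_apply (f : W →+ W) (n : ℕ) (x : W) : itHom f n x = f^[n] x := by
  induction n generalizing x with
  | zero => rfl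
  | succ n ih => rw [Function.iterate_succ_apply, ← ih]; rfl

theorem coe_itHom (f : W →+ W) (n : ℕ) : ⇑(itHom f n) = f^[n] := funext (itHom_apply f n)

/-- `f ^ j x ≡ x + j (f - 1) x` modulo `Y`, if `(f - 1)(f - 1) W ≤ Y` and `f = 1` on `Y`. -/
theorem iterate_sub_mem (f : W →+ W) (Y : AddSubgroup W)
    (h2 : ∀ x, f (f x - x) - (f x - x) ∈ Y) (h3 : ∀ y ∈ Y, f y = y) (j : ℕ) (x : W) :
    f^[j] x - x - j • (f x - x) ∈ Y := by
  induction j with
  | zero => simp
  | succ j ih =>
    have h2x := h2 x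
    generalize hA : f x - x = A at ih h2x ⊢
    have hfx : f x = A + x := by rw [← hA]; abel
    have e : f^[j + 1] x - x - (j + 1) • A = f (f^[j] x - x - j • A) + j • (f A - A) := by
      rw [Function.iterate_succ_apply', map_sub, map_sub, map_nsmul, hfx, add_smul, one_smul,
        smul_sub]
      abel
    rw [e, h3 _ ih]
    exact Y.add_mem ih (Y.nsmul_mem h2x j)

/-- two step filtration -/
theorem iterate_eq_of_two_step (n : ℕ) (hn : ∀ x : W, n • x = 0) (f : W →+ W)
    (h : ∀ x, f (f x - x) = f x - x) (x : W) : f^[n] x = x := by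
  have := iterate_sub_mem f ⊥ (fun x => by rw [h, sub_self]; exact AddSubgroup.zero_mem _)
    (fun y hy => by rw [(AddSubgroup.mem_bot).1 hy, map_zero]) n x
  rw [AddSubgroup.mem_bot, hn, sub_zero, sub_eq_zero] at this
  exact this

/-- three step filtration -/
theorem iterate_eq_of_three_step (n : ℕ) (hn : ∀ x : W, n • x = 0) (f : W →+ W)
    (K Y : AddSubgroup W) (h1 : ∀ x, f x - x ∈ K) (h2 : ∀ x ∈ K, f x - x ∈ Y)
    (h3 : ∀ y ∈ Y, f y = y) (x : W) : f^[n * n] x = x := by
  have hY : ∀ x, f^[n] x - x ∈ Y := by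
    intro x
    have := iterate_sub_mem f Y (fun x => h2 _ (h1 x)) h3 n x
    rwa [hn, sub_zero] at this
  have hfix : ∀ (j : ℕ), ∀ y ∈ Y, f^[j] y = y := by
    intro j
    induction j with
    | zero => intro y _; rfl
    | succ j ih => intro y hy; rw [Function.iterate_succ_apply, h3 y hy, ih y hy]
  have key := iterate_eq_of_two_step n hn (itHom f n)
    (fun z => by rw [itHom_apply, itHom_apply]; exact hfix n _ (hY z)) x
  rw [Function.iterate_mul]
  rw [coe_itHom] at key
  exact key

/-- **`TameAt` at level `H`.** -/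
theorem iterate_eq_of_filtration (n P : ℕ) (hn : ∀ x : W, n • x = 0) (τ d : W →+ W)
    (hd : ∀ x, d^[P] x = x) (K Y : AddSubgroup W) (hdK : ∀ x ∈ K, d x ∈ K)
    (h1 : ∀ x, τ x - x ∈ K) (h2 : ∀ x ∈ K, τ x - d x ∈ Y) (h3 : ∀ y ∈ Y, τ y = y) (x : W) :
    τ^[P * (n * n)] x = x := by
  have hfix : ∀ (j : ℕ), ∀ y ∈ Y, τ^[j] y = y := by
    intro j
    induction j with
    | zero => intro y _; rfl
    | succ j ih => intro y hy; rw [Function.iterate_succ_apply, h3 y hy, ih y hy]
  have hK : ∀ (j : ℕ) (x : W), τ^[j] x - x ∈ K := by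
    intro j
    induction j with
    | zero => intro x; simp
    | succ j ih =>
      intro x
      have e : τ^[j + 1] x - x = (τ^[j] (τ x) - τ x) + (τ x - x) := by
        rw [Function.iterate_succ_apply]; abel
      rw [e]
      exact K.add_mem (ih _) (h1 x)
  have hdK' : ∀ (j : ℕ), ∀ x ∈ K, d^[j] x ∈ K := by
    intro j
    induction j with
    | zero => intro x hx; exact hx
    | succ j ih => intro x hx; rw [Function.iterate_succ_apply]; exact ih _ (hdK x hx)
  have hKY : ∀ (j : ℕ), ∀ x ∈ K, τ^[j] x - d^[j] x ∈ Y := by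
    intro j
    induction j with
    | zero => intro x _; simp
    | succ j ih =>
      intro x hx
      have e : τ^[j + 1] x - d^[j + 1] x =
          τ^[j] (τ x - d x) + (τ^[j] (d x) - d^[j] (d x)) := by
        rw [Function.iterate_succ_apply, Function.iterate_succ_apply, iterate_map_sub]; abel
      rw [e, hfix j _ (h2 x hx)]
      exact Y.add_mem (h2 x hx) (ih _ (hdK x hx))
  have e : ⇑(itHom τ P) = τ^[P] := coe_itHom τ P
  have key := iterate_eq_of_three_step n hn (itHom τ P) K Y
    (fun z => by rw [e]; exact hK P z)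
    (fun z hz => by
      rw [e]
      have := hKY P z hz
      rwa [hd] at this)
    (fun y hy => by rw [e]; exact hfix P y hy) x
  rw [e] at key
  rw [Function.iterate_mul]
  exact key

end Fermat.Agent.S43.Asm
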