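/-
Row 37 (S43), block ASM (helper6).  **THE TWO-STAGE CHOICE OF `σ`, `φ`** (for GLUE / the final integrator).

`r : G_ℚ → End W` (`W = W_H(n)_m`), `r0 : G_ℚ → End W0` (`W0 = W_0(n)_m`), `n = p ^ (e + 1)`, `I` the inertia group of `A ∣ q`,
`dl τ = ⟨ε(τ)⟩^{±1}` the diamond operator attached to `τ`.

The block TAME (`Tame.tame_monoid`) needs: every `τ ∈ I` acts on `W` with order prime to `q`.  This is NOT formal at level `H`: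
 stage 1 : at level `Γ₀` inertia is unipotent (`(τ - 1) W0 ≤ Y0`, `τ = 1` on `Y0`), so TAME gives `σ₁ ∈ I` generating `r0(I)`,
           with `ε(σ₁)` a generator of `(ℤ/q)ˣ`;  the counting data `T2.Data` for `σ₁` give `K ∩ K' = inc (ker N₀)`, fixed by `I`;
 stage 2 : `W ⊇ K ⊇ K ∩ K' ⊇ 0` : `τ = 1, dl τ, 1` on the graded pieces, so `τ ^ (P n n) = 1`  (`Asm.iterate_eq_of_filtration`);
           TAME at level `H` gives `σ`, `φ`.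
-/
import Fermat.Agent.S43.Asm.TameAt
import Fermat.Agent.S43.T2.Abs
import Fermat.Agent.S43.Tame.Export

set_option autoImplicit false

namespace Fermat.Agent.S43.Asm

open Fermat.Agent.Lib.InertiaField

theorem end_pow_apply {W : Type*} [AddCommGroup W] (f : AddMonoid.End W) (j : ℕ) (x : W) :
    (f ^ j) x = f^[j] x := by
  rw [AddMonoid.End.coe_pow]

theorem end_pow_eq_one {W : Type*} [AddCommGroup W] (f : AddMonoid.End W) (j : ℕ)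
    (h : ∀ x, f^[j] x = x) : f ^ j = 1 := by
  ext x
  rw [end_pow_apply, h]
  rfl

theorem end_pow_fix {W : Type*} [AddCommGroup W] (f : AddMonoid.End W) (j : ℕ) (x : W)
    (h : f x = x) : (f ^ j) x = x := by
  rw [end_pow_apply]
  exact Function.iterate_fixed h j

/-- **Stage 1**: a generator of the tame inertia at level `Γ₀`. -/
theorem exists_sigma_zero {p k q : ℕ} (hp : p.Prime) (hq : q.Prime) (hqp : q ≠ p)
    (A : ValuationSubring Qb) (hA : A.LiesOverPrime q) {ζ : Qb} (hζ : IsPrimitiveRoot ζ q)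
    {W0 : Type} [AddCommGroup W0] (r0 : GQ →* AddMonoid.End W0)
    (hfin0 : ∃ L : IntermediateField ℚ Qb, FiniteDimensional ℚ L ∧
      ∀ σ : GQ, (∀ x ∈ L, σ x = x) → r0 σ = 1)
    (hn0 : ∀ y : W0, p ^ k • y = 0) (Y0 : AddSubgroup W0)
    (h01 : ∀ τ ∈ A.inertiaSubgroupIn ℚ, ∀ y, r0 τ y - y ∈ Y0)
    (h02 : ∀ τ ∈ A.inertiaSubgroupIn ℚ, ∀ y ∈ Y0, r0 τ y = y) :
    ∃ σ ∈ A.inertiaSubgroupIn ℚ, ∃ φ : GQ, A.IsFrobeniusAt φ q ∧ φ ζ = ζ ∧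
      (∀ τ ∈ A.inertiaSubgroupIn ℚ, ∃ j : ℕ, r0 τ = r0 σ ^ j ∧ τ ζ = (σ ^ j) ζ) ∧
      (∀ a : ℕ, ¬ q ∣ a → ∃ j : ℕ, (σ ^ j) ζ = ζ ^ a) ∧
      r0 φ * r0 σ = r0 σ ^ q * r0 φ := by
  refine Tame.tame_monoid hq A hA hζ r0 hfin0 fun τ hτ => ⟨p ^ k, ?_, ?_⟩
  · intro h
    exact hqp ((Nat.prime_dvd_prime_iff_eq hq hp).1 (hq.dvd_of_dvd_pow h))
  · exact end_pow_eq_one _ _ fun x =>
      iterate_eq_of_two_step (p ^ k) hn0 (r0 τ) (fun y => h02 τ hτ _ (h01 τ hτ y)) x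

/-- **Stage 2, the hypothesis `TameAt` at level `H`.** -/
theorem pow_eq_one_of_data {p e : ℕ} [Fact p.Prime] {W W0 : Type} [AddCommGroup W]
    [AddCommGroup W0] [Finite W] (D : T2.Data p (e + 1) e W W0)
    (t d : AddMonoid.End W) (t0 : AddMonoid.End W0)
    (hd : d ^ (p ^ e) = 1) (hdK : ∀ x ∈ D.K, d x ∈ D.K)
    (t1 : ∀ x, t x - x ∈ D.K) (t3 : ∀ x, t x - d x ∈ D.K')
    (hinc : ∀ y, t (D.inc y) = D.inc (t0 y)) (h0 : ∀ y, D.N₀ y = 0 → t0 y = y) :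
    t ^ (p ^ e * (p ^ (e + 1) * p ^ (e + 1))) = 1 := by
  have : Finite W0 := Finite.of_surjective _ D.pr_surj
  have hd' : ∀ x, d^[p ^ e] x = x := fun x => by
    rw [← end_pow_apply, hd]
    rfl
  have h2 : ∀ x ∈ D.K, t x - d x ∈ D.K ⊓ D.K' := fun x hx => by
    refine ⟨?_, t3 x⟩
    have e1 : t x - d x = (t x - x) + (x - d x) := by abel
    rw [e1]
    exact D.K.add_mem (t1 x) (D.K.sub_mem hx (hdK x hx))
  have h3 : ∀ y ∈ D.K ⊓ D.K', t y = y := fun y hy => by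
    obtain ⟨y0, hy0, rfl⟩ := D.exists_of_mem hy.1 hy.2
    rw [hinc, h0 y0 hy0]
  exact end_pow_eq_one _ _ fun x =>
    iterate_eq_of_filtration (p ^ (e + 1)) (p ^ e) D.hW t d hd' D.K (D.K ⊓ D.K') hdK t1 h2 h3 x

/-- **The two-stage choice of `σ` and `φ`.**  `stage` = the construction of the counting data from a generator of the
tame inertia at level `Γ₀` (FREE, TRIV, C4, E0 for `δ = dl σ`). -/
theorem exists_sigma_phi {p e q : ℕ} [Fact p.Prime] (hq : q.Prime) (hqp : q ≠ p)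
    (A : ValuationSubring Qb) (hA : A.LiesOverPrime q) {ζ : Qb} (hζ : IsPrimitiveRoot ζ q)
    {W W0 : Type} [AddCommGroup W] [AddCommGroup W0] [Finite W]
    (r : GQ →* AddMonoid.End W) (r0 : GQ →* AddMonoid.End W0)
    (hfin : ∃ L : IntermediateField ℚ Qb, FiniteDimensional ℚ L ∧
      ∀ σ : GQ, (∀ x ∈ L, σ x = x) → r σ = 1)
    (hfin0 : ∃ L : IntermediateField ℚ Qb, FiniteDimensional ℚ L ∧
      ∀ σ : GQ, (∀ x ∈ L, σ x = x) → r0 σ = 1)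
    (hn0 : ∀ y : W0, p ^ (e + 1) • y = 0) (Y0 : AddSubgroup W0)
    (h01 : ∀ τ ∈ A.inertiaSubgroupIn ℚ, ∀ y, r0 τ y - y ∈ Y0)
    (h02 : ∀ τ ∈ A.inertiaSubgroupIn ℚ, ∀ y ∈ Y0, r0 τ y = y)
    (dl : GQ → AddMonoid.End W) (K K' : AddSubgroup W)
    (dlP : ∀ τ, dl τ ^ (p ^ e) = 1) (dlK : ∀ τ, ∀ x ∈ K, dl τ x ∈ K)
    (t1 : ∀ τ ∈ A.inertiaSubgroupIn ℚ, ∀ x, r τ x - x ∈ K)
    (t3 : ∀ τ ∈ A.inertiaSubgroupIn ℚ, ∀ x, r τ x - dl τ x ∈ K')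
    (stage : ∀ σ ∈ A.inertiaSubgroupIn ℚ,
      (∀ τ ∈ A.inertiaSubgroupIn ℚ, ∃ j : ℕ, r0 τ = r0 σ ^ j) →
      (∀ a : ℕ, ¬ q ∣ a → ∃ j : ℕ, (σ ^ j) ζ = ζ ^ a) →
      ∃ D : T2.Data p (e + 1) e W W0, D.K = K ∧ D.K' = K' ∧ (∀ y, D.N₀ y = r0 σ y - y) ∧
        ∀ (τ : GQ) (y : W0), r τ (D.inc y) = D.inc (r0 τ y)) :
    ∃ σ ∈ A.inertiaSubgroupIn ℚ, ∃ φ : GQ, A.IsFrobeniusAt φ q ∧ φ ζ = ζ ∧
      (∀ τ ∈ A.inertiaSubgroupIn ℚ, ∃ j : ℕ, r τ = r σ ^ j ∧ τ ζ = (σ ^ j) ζ) ∧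
      (∀ a : ℕ, ¬ q ∣ a → ∃ j : ℕ, (σ ^ j) ζ = ζ ^ a) ∧
      r φ * r σ = r σ ^ q * r φ := by
  have hp : p.Prime := Fact.out
  obtain ⟨σ₁, hσ₁, -, -, -, hgen, hcyc, -⟩ :=
    exists_sigma_zero hp hq hqp A hA hζ r0 hfin0 hn0 Y0 h01 h02
  obtain ⟨D, rfl, rfl, hN, hinc⟩ := stage σ₁ hσ₁
    (fun τ hτ => (hgen τ hτ).imp fun _ h => h.1) hcyc
  refine Tame.tame_monoid hq A hA hζ r hfin fun τ hτ =>
    ⟨p ^ e * (p ^ (e + 1) * p ^ (e + 1)), ?_, ?_⟩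
  · intro h
    have h1 : q ∣ p := by
      rcases (Nat.Prime.dvd_mul hq).1 h with h | h
      · exact hq.dvd_of_dvd_pow h
      · rcases (Nat.Prime.dvd_mul hq).1 h with h | h <;> exact hq.dvd_of_dvd_pow h
    exact hqp ((Nat.prime_dvd_prime_iff_eq hq hp).1 h1)
  · refine pow_eq_one_of_data D (r τ) (dl τ) (r0 τ) (dlP τ) (dlK τ) (t1 τ hτ) (t3 τ hτ) (hinc τ) ?_
    intro y hy
    obtain ⟨j, hj, -⟩ := hgen τ hτ
    rw [hj]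
    apply end_pow_fix
    rw [hN, sub_eq_zero] at hy
    exact hy

end Fermat.Agent.S43.Asm
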