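/-
Row 37 (S43), block ASM (helper6).  TOP THEOREM through `Asm.Pkg`:

    `result_of_pkg : NodeS44 → NodePkg → (frozen S43)`.
-/
import Fermat.Agent.S43.Asm.Main
import Fermat.Agent.S43.Top

set_option autoImplicit false
open WeierstrassCurve WeierstrassCurve.Affine WeierstrassCurve.Affine.Point
open CuspForm ModularFormClass UpperHalfPlane
open FreyPackage

namespace Fermat.Agent.S43

/-- **The only node**: for a level `M q` prime to `p`, `ρ̄` unramified at `q`, modular of level `M q`, not of level `M`,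
the abstract package exists (`p ^ a ‖ q - 1`). -/
def NodePkg : Prop :=
  ∀ (P : FreyPackage) (M q : ℕ), Hyp P M q → ∃ a : ℕ, Nonempty (Asm.Pkg P.p a)

theorem result_of_pkg (h44 : NodeS44) (h : NodePkg)
    (P : FreyPackage) {N q : ℕ} (hcond : P.IsConductorLevel N) (hq : q.Prime) (hq2 : q ≠ 2)
    (hqp : q ≠ P.p) (hqN : q ∣ N)
    (hirr : GaloisRepIsIrreducible (K := AlgebraicClosure ℚ) ℚ P.freyCurve P.p)
    (hmod : P.ModularRepOfLevel N) (hunr : P.GaloisRepUnramifiedAt q) :
    ∃ M : ℕ, M ∣ N ∧ ¬ q ∣ M ∧ P.ModularRepOfLevel M :=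
  result_of_nodes h44
    (fun P M q hyp => by
      obtain ⟨a, ⟨D⟩⟩ := h P M q hyp
      exact (Asm.false_of_pkg D).elim)
    P hcond hq hq2 hqp hqN hirr hmod hunr

end Fermat.Agent.S43
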